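import Mathlib
import Fermat.Prelude.Def_FormalHecke_Eigensystem

set_option autoImplicit false

namespace Fermat.Agent.S49.FormalRecursive

open FormalHecke

variable {R : Type*} [CommRing R] {e a : ℕ → R}

theorem eig_one (h : IsEigensystem e a) : a 1 = 1 := h.1

theorem eig_prime_mul_of_not_dvd (h : IsEigensystem e a) {ℓ : ℕ} (hℓ : ℓ.Prime) {n : ℕ}
    (hn : ¬ ℓ ∣ n) : a (ℓ * n) = a ℓ * a n := by
  have := h.2 ℓ hℓ n
  rwa [if_neg hn, mul_zero, add_zero] at this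

theorem eig_prime_mul_of_dvd (h : IsEigensystem e a) {ℓ : ℕ} (hℓ : ℓ.Prime) {n : ℕ}
    (hn : ℓ ∣ n) : a (ℓ * n) = a ℓ * a n - e ℓ * a (n / ℓ) := by
  have := h.2 ℓ hℓ n
  rw [if_pos hn] at this
  rw [← this]; ring

theorem eig_prime_pow (h : IsEigensystem e a) {ℓ : ℕ} (hℓ : ℓ.Prime) (r : ℕ) :
    a (ℓ ^ (r + 2)) = a ℓ * a (ℓ ^ (r + 1)) - e ℓ * a (ℓ ^ r) := by
  have h1 := eig_prime_mul_of_dvd h hℓ (n := ℓ ^ (r + 1)) (dvd_pow_self ℓ (Nat.succ_ne_zero r))
  have h2 : ℓ * ℓ ^ (r + 1) = ℓ ^ (r + 2) := by ring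
  have h3 : ℓ ^ (r + 1) / ℓ = ℓ ^ r := by
    rw [pow_succ, Nat.mul_div_cancel _ hℓ.pos]
  rw [h2, h3] at h1
  exact h1

/-- multiplicativity for a prime power times a number prime to it -/
theorem eig_prime_pow_mul (h : IsEigensystem e a) {ℓ : ℕ} (hℓ : ℓ.Prime) (r : ℕ) {n : ℕ}
    (hn : ¬ ℓ ∣ n) : a (ℓ ^ r * n) = a (ℓ ^ r) * a n := by
  induction r using Nat.strong_induction_on with
  | _ r ih =>
    match r, ih with
    | 0, _ => simp [eig_one h]
    | 1, _ => simpa using eig_prime_mul_of_not_dvd h hℓ hn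
    | r + 2, ih =>
      have hdvd : ℓ ∣ ℓ ^ (r + 1) * n := Dvd.dvd.mul_right (dvd_pow_self ℓ (Nat.succ_ne_zero r)) n
      have h1 := eig_prime_mul_of_dvd h hℓ hdvd
      have h2 : ℓ * (ℓ ^ (r + 1) * n) = ℓ ^ (r + 2) * n := by ring
      have h3 : ℓ ^ (r + 1) * n / ℓ = ℓ ^ r * n := by
        rw [pow_succ, mul_assoc, mul_comm ℓ n, ← mul_assoc, Nat.mul_div_cancel _ hℓ.pos]
      rw [h2, h3, ih (r + 1) (by omega), ih r (by omega)] at h1
      rw [h1, eig_prime_pow h hℓ r]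
      ring

theorem eig_mul_of_coprime (h : IsEigensystem e a) (m n : ℕ) (hmn : m.Coprime n) :
    a (m * n) = a m * a n := by
  induction m using Nat.strong_induction_on with
  | _ m ih =>
    rcases Nat.eq_zero_or_pos m with rfl | hmpos
    · -- m = 0, so n = 1
      have hn : n = 1 := by simpa using hmn
      subst hn
      simp [eig_one h]
    rcases eq_or_ne m 1 with rfl | hm1
    · simp [eig_one h]
    -- pick a prime factor
    obtain ⟨ℓ, hℓ, hℓm⟩ := Nat.exists_prime_and_dvd hm1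
    obtain ⟨r, m', hm', rfl⟩ := Nat.exists_eq_pow_mul_and_not_dvd hmpos.ne' ℓ hℓ.ne_one
    have hr : r ≠ 0 := by
      rintro rfl
      simp only [pow_zero, one_mul] at hℓm
      exact hm' hℓm
    have hℓn : ¬ ℓ ∣ n := by
      intro hℓn
      have : ℓ ∣ Nat.gcd (ℓ ^ r * m') n := Nat.dvd_gcd hℓm hℓn
      rw [hmn] at this
      exact hℓ.one_lt.ne' (Nat.dvd_one.mp this)
    have hcop : m'.Coprime n := Nat.Coprime.coprime_dvd_left (Dvd.intro_left _ rfl) hmn
    have hlt : m' < ℓ ^ r * m' := by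
      have hm'pos : 0 < m' := Nat.pos_of_ne_zero (by rintro rfl; simp at hmpos)
      have : 1 < ℓ ^ r := Nat.one_lt_pow hr hℓ.one_lt
      nlinarith
    have hℓm'n : ¬ ℓ ∣ m' * n := by
      intro hd
      rcases (Nat.Prime.dvd_mul hℓ).mp hd with h1 | h1
      · exact hm' h1
      · exact hℓn h1
    rw [mul_assoc, eig_prime_pow_mul h hℓ r hℓm'n, ih m' hlt hcop, eig_prime_pow_mul h hℓ r hm']
    ring

theorem isRecursive_of_isEigensystem (h : IsEigensystem e a) : IsRecursive e a :=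
  ⟨h.1, eig_mul_of_coprime h, fun _ r hℓ => eig_prime_pow h hℓ r⟩

end Fermat.Agent.S49.FormalRecursive
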