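import Mathlib
import Fermat.Prelude.Def_CuspForm_HeckeAlgebra
import Fermat.Prelude.Def_FLTPrelim_Modularity
import Fermat.Prelude.Thm_ModularFormClass_qCoeff_heckeT
import Fermat.Prelude.Thm_ModularFormClass_qCoeff_heckeU
import Fermat.Prelude.Thm_UpperHalfPlane_eq_of_forall_qCoeff_eq
import Fermat.Agent.S49.FormalRecursive

set_option autoImplicit false

namespace Fermat.Agent.S49.Eigenform

open UpperHalfPlane ModularFormClass CongruenceSubgroup Fermat.Agent.S49.FormalRecursive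

variable {N : ℕ}

theorem one_mem_strictPeriods_Gamma0 (N : ℕ) :
    (1 : ℝ) ∈ (Subgroup.map (Matrix.SpecialLinearGroup.mapGL ℝ) (Gamma0 N)).strictPeriods := by
  simp [CongruenceSubgroup.strictPeriods_Gamma0]

/-- `qCoeff` of a scalar multiple of a cusp form. -/
theorem qCoeff_smul_cuspForm (c : ℂ) (v : CuspForm (Gamma0 N) 2) (n : ℕ) :
    qCoeff (⇑(c • v)) n = c * qCoeff (⇑v) n := by
  have h := ModularForm.qExpansion_smul (k := 2) one_pos (one_mem_strictPeriods_Gamma0 N) c v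
  have hcoe : (⇑(c • v) : ℍ → ℂ) = c • ⇑v := rfl
  rw [qCoeff, hcoe, h]
  simp [qCoeff]

theorem qCoeff_zero_cuspForm (v : CuspForm (Gamma0 N) 2) : qCoeff (⇑v) 0 = 0 :=
  CuspFormClass.qExpansion_coeff_zero v one_pos (one_mem_strictPeriods_Gamma0 N)

/-- A cusp form with all `q`-coefficients zero vanishes. -/
theorem cuspForm_eq_zero_of_qCoeff (v : CuspForm (Gamma0 N) 2)
    (h : ∀ n, qCoeff (⇑v) n = 0) : v = 0 := by
  have hΓ := one_mem_strictPeriods_Gamma0 N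
  have : Fact (IsCusp OnePoint.infty
      (Subgroup.map (Matrix.SpecialLinearGroup.mapGL ℝ) (Gamma0 N))) :=
    ⟨Subgroup.isCusp_of_mem_strictPeriods one_pos hΓ⟩
  have hper : Function.Periodic ((⇑v : ℍ → ℂ) ∘ ofComplex) ((1 : ℝ) : ℂ) :=
    SlashInvariantFormClass.periodic_comp_ofComplex v hΓ
  have hq : qExpansion 1 (⇑v) = 0 := by
    ext n
    simpa [qCoeff] using h n
  have := (UpperHalfPlane.qExpansion_eq_zero_iff one_pos hper (CuspFormClass.holo v)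
    (ModularFormClass.bdd_at_infty v)).mp hq
  exact DFunLike.coe_injective this

theorem qCoeff_heckeTLin {ℓ : ℕ} (hℓ : ℓ.Prime) (hℓN : ¬ ℓ ∣ N)
    (v : CuspForm (Gamma0 N) 2) (n : ℕ) :
    qCoeff (⇑(CuspForm.heckeTLin 2 hℓ hℓN v)) n
      = ModularForm.coeffHeckeT 2 ℓ (qCoeff (⇑v)) n :=
  ModularFormClass.qCoeff_heckeT v (one_mem_strictPeriods_Gamma0 N) hℓ.ne_zero n

theorem qCoeff_heckeULin [NeZero N] {q : ℕ} (hq : q.Prime) (hqN : q ∣ N)
    (v : CuspForm (Gamma0 N) 2) (n : ℕ) :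
    qCoeff (⇑(CuspForm.heckeULin 2 hqN v)) n
      = ModularForm.coeffHeckeU q (qCoeff (⇑v)) n :=
  ModularFormClass.qCoeff_heckeU v (one_mem_strictPeriods_Gamma0 N) hq.ne_zero n

/-- The level character for weight two: `ℓ` away from the level, `0` at the level. -/
noncomputable def levelWeight (N : ℕ) (ℓ : ℕ) : ℂ := if ℓ ∣ N then 0 else (ℓ : ℂ)

/-- The eigen-relations on `q`-coefficients of a common eigenvector. -/
theorem eigen_relation [NeZero N] (v : CuspForm (Gamma0 N) 2) (lam : ℕ → ℂ)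
    (hT : ∀ (ℓ : ℕ) (hℓ : ℓ.Prime) (hℓN : ¬ ℓ ∣ N), CuspForm.heckeTLin 2 hℓ hℓN v = lam ℓ • v)
    (hU : ∀ (q : ℕ) (_ : q.Prime) (hqN : q ∣ N), CuspForm.heckeULin 2 hqN v = lam q • v)
    {ℓ : ℕ} (hℓ : ℓ.Prime) (n : ℕ) :
    qCoeff (⇑v) (ℓ * n) + levelWeight N ℓ * (if ℓ ∣ n then qCoeff (⇑v) (n / ℓ) else 0)
      = lam ℓ * qCoeff (⇑v) n := by
  by_cases hℓN : ℓ ∣ N
  · have h1 := qCoeff_heckeULin hℓ hℓN v n
    rw [hU ℓ hℓ hℓN, qCoeff_smul_cuspForm, ModularForm.coeffHeckeU_apply] at h1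
    rw [levelWeight, if_pos hℓN, zero_mul, add_zero, mul_comm ℓ n, h1]
  · have h1 := qCoeff_heckeTLin hℓ hℓN v n
    rw [hT ℓ hℓ hℓN, qCoeff_smul_cuspForm, ModularForm.coeffHeckeT_apply] at h1
    rw [levelWeight, if_neg hℓN, mul_comm ℓ n, h1]
    by_cases hd : ℓ ∣ n
    · simp [hd]
    · simp [hd]

/-- If the first coefficient of a common eigenvector vanishes, all coefficients vanish. -/
theorem qCoeff_eq_zero_of_one [NeZero N] (v : CuspForm (Gamma0 N) 2) (lam : ℕ → ℂ)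
    (hT : ∀ (ℓ : ℕ) (hℓ : ℓ.Prime) (hℓN : ¬ ℓ ∣ N), CuspForm.heckeTLin 2 hℓ hℓN v = lam ℓ • v)
    (hU : ∀ (q : ℕ) (_ : q.Prime) (hqN : q ∣ N), CuspForm.heckeULin 2 hqN v = lam q • v)
    (h1 : qCoeff (⇑v) 1 = 0) : ∀ n, qCoeff (⇑v) n = 0 := by
  intro n
  induction n using Nat.strong_induction_on with
  | _ n ih =>
    rcases Nat.eq_zero_or_pos n with rfl | hn
    · exact qCoeff_zero_cuspForm v
    rcases eq_or_ne n 1 with rfl | hn1
    · exact h1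
    obtain ⟨ℓ, hℓ, m, rfl⟩ := Nat.exists_prime_and_dvd hn1
    have hm : 0 < m := Nat.pos_of_ne_zero (by rintro rfl; simp at hn)
    have hlt : m < ℓ * m := by nlinarith [hℓ.one_lt]
    have hrel := eigen_relation v lam hT hU hℓ m
    rw [ih m hlt, mul_zero] at hrel
    by_cases hd : ℓ ∣ m
    · rw [if_pos hd, ih (m / ℓ) (lt_of_le_of_lt (Nat.div_le_self m ℓ) hlt), mul_zero,
        add_zero] at hrel
      exact hrel
    · rw [if_neg hd, mul_zero, add_zero] at hrel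
      exact hrel

theorem exists_normalizedEigenform_of_eigenvector [NeZero N]
    (v : CuspForm (Gamma0 N) 2) (hv : v ≠ 0) (lam : ℕ → ℂ)
    (hT : ∀ (ℓ : ℕ) (hℓ : ℓ.Prime) (hℓN : ¬ ℓ ∣ N), CuspForm.heckeTLin 2 hℓ hℓN v = lam ℓ • v)
    (hU : ∀ (q : ℕ) (_ : q.Prime) (hqN : q ∣ N), CuspForm.heckeULin 2 hqN v = lam q • v) :
    ∃ g : CuspForm (Gamma0 N) 2, g.IsNormalizedEigenform ∧
      ∀ ℓ : ℕ, ℓ.Prime → qCoeff (⇑g) ℓ = lam ℓ := by
  have ha1 : qCoeff (⇑v) 1 ≠ 0 := fun h1 =>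
    hv (cuspForm_eq_zero_of_qCoeff v (qCoeff_eq_zero_of_one v lam hT hU h1))
  set c : ℂ := (qCoeff (⇑v) 1)⁻¹ with hc
  set g : CuspForm (Gamma0 N) 2 := c • v with hg
  have hgT : ∀ (ℓ : ℕ) (hℓ : ℓ.Prime) (hℓN : ¬ ℓ ∣ N),
      CuspForm.heckeTLin 2 hℓ hℓN g = lam ℓ • g := by
    intro ℓ hℓ hℓN
    rw [hg, map_smul, hT ℓ hℓ hℓN, smul_comm]
  have hgU : ∀ (q : ℕ) (_ : q.Prime) (hqN : q ∣ N), CuspForm.heckeULin 2 hqN g = lam q • g := by
    intro q hq hqN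
    rw [hg, map_smul, hU q hq hqN, smul_comm]
  have hg1 : qCoeff (⇑g) 1 = 1 := by
    rw [hg, qCoeff_smul_cuspForm, hc, inv_mul_cancel₀ ha1]
  have hlam : ∀ ℓ : ℕ, ℓ.Prime → qCoeff (⇑g) ℓ = lam ℓ := by
    intro ℓ hℓ
    have := eigen_relation g lam hgT hgU hℓ 1
    have hnd : ¬ ℓ ∣ 1 := fun h => hℓ.one_lt.ne' (Nat.dvd_one.mp h)
    rw [if_neg hnd, mul_zero, add_zero, mul_one, hg1, mul_one] at this
    exact this
  have heig : FormalHecke.IsEigensystem (levelWeight N) (fun n => qCoeff (⇑g) n) := by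
    refine ⟨hg1, fun ℓ hℓ n => ?_⟩
    have := eigen_relation g lam hgT hgU hℓ n
    show qCoeff (⇑g) (ℓ * n) + levelWeight N ℓ * (if ℓ ∣ n then qCoeff (⇑g) (n / ℓ) else 0)
      = qCoeff (⇑g) ℓ * qCoeff (⇑g) n
    rw [hlam ℓ hℓ]
    exact this
  obtain ⟨-, hmul, hrec⟩ := isRecursive_of_isEigensystem heig
  refine ⟨g, ⟨hg1, hmul, ?_, ?_⟩, hlam⟩
  · intro p r hp hpN
    have := hrec p r hp
    simp only [levelWeight, if_neg hpN] at this
    exact this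
  · intro p r hp hpN
    have := hrec p r hp
    simp only [levelWeight, if_pos hpN, zero_mul, sub_zero] at this
    exact this

end Fermat.Agent.S49.Eigenform
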