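import Mathlib
import Fermat.Prelude.Def_CuspForm_IntegralLattice
import Fermat.Prelude.Def_FormalHecke_Eigensystem
import Fermat.Prelude.Def_ModularForm_EisensteinChiNegThree
import Fermat.Prelude.Def_FLTPrelim_Modularity
import Fermat.Prelude.Def_CuspForm_HeckeAlgebra
import Fermat.Prelude.Def_CuspForm_IntegralStructure
import Fermat.Prelude.Thm_CuspForm_mem_intLattice_of_mem_heckeAlgebra
import Fermat.Prelude.Thm_ModularFormClass_qCoeff_heckeT
import Fermat.Prelude.Thm_ModularFormClass_qCoeff_heckeU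
import Fermat.Prelude.Thm_CongruenceSubgroup_one_mem_strictPeriods_Gamma0

set_option autoImplicit false

open CuspForm EisensteinWeightOne CongruenceSubgroup ModularFormClass

namespace Fermat.Agent.S49.Realize

noncomputable section

variable {N : ℕ} {k : ℤ}

theorem hΓ (N : ℕ) :
    (1 : ℝ) ∈ (Subgroup.map (Matrix.SpecialLinearGroup.mapGL ℝ) (Gamma0 N)).strictPeriods :=
  CongruenceSubgroup.one_mem_strictPeriods_Gamma0 N

theorem qCoeff_add (f g : CuspForm (Gamma0 N) k) (n : ℕ) :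
    qCoeff ⇑(f + g) n = qCoeff ⇑f n + qCoeff ⇑g n := by
  simp only [qCoeff, FunLike.coe_add]
  rw [ModularForm.qExpansion_add one_pos (hΓ N) f g, map_add]

theorem qCoeff_sub (f g : CuspForm (Gamma0 N) k) (n : ℕ) :
    qCoeff ⇑(f - g) n = qCoeff ⇑f n - qCoeff ⇑g n := by
  simp only [qCoeff, FunLike.coe_sub]
  rw [ModularForm.qExpansion_sub one_pos (hΓ N) f g, map_sub]

theorem qCoeff_zero' (n : ℕ) : qCoeff ⇑(0 : CuspForm (Gamma0 N) k) n = 0 := by
  simp only [qCoeff, FunLike.coe_zero]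
  rw [UpperHalfPlane.qExpansion_zero, map_zero]

theorem qCoeff_smul (c : ℂ) (f : CuspForm (Gamma0 N) k) (n : ℕ) :
    qCoeff ⇑(c • f) n = c * qCoeff ⇑f n := by
  have h1 : ⇑(c • f) = c • ⇑f := by
    ext z
    simp
  simp only [qCoeff, h1]
  rw [ModularForm.qExpansion_smul one_pos (hΓ N) c f]
  simp

theorem qCoeff_zsmul (c : ℤ) (f : CuspForm (Gamma0 N) k) (n : ℕ) :
    qCoeff ⇑(c • f) n = c * qCoeff ⇑f n := by
  have h1 : c • f = (c : ℂ) • f := by
    ext z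
    simp
  rw [h1, qCoeff_smul]

def intSubmodule (N : ℕ) (k : ℤ) : Submodule ℤ (CuspForm (Gamma0 N) k) where
  carrier := {f | ∀ n : ℕ, ∃ m : ℤ, qCoeff f n = (m : ℂ)}
  add_mem' {f g} hf hg n := by
    obtain ⟨a, ha⟩ := hf n
    obtain ⟨b, hb⟩ := hg n
    exact ⟨a + b, by rw [qCoeff_add, ha, hb]; push_cast; ring⟩
  zero_mem' n := ⟨0, by rw [qCoeff_zero']; simp⟩
  smul_mem' c {f} hf n := by
    obtain ⟨a, ha⟩ := hf n
    exact ⟨c * a, by rw [qCoeff_zsmul, ha]; push_cast; ring⟩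

theorem intLattice_eq (N : ℕ) (k : ℤ) : CuspForm.intLattice N k = intSubmodule N k :=
  Submodule.span_eq (intSubmodule N k)

theorem mem_intLattice_iff (f : CuspForm (Gamma0 N) k) :
    f ∈ CuspForm.intLattice N k ↔ ∀ n : ℕ, ∃ m : ℤ, qCoeff f n = (m : ℂ) := by
  rw [intLattice_eq]
  rfl

/-- all `q`-coefficients are integers divisible by three -/
def IsThreeDiv (f : CuspForm (Gamma0 N) k) : Prop :=
  ∀ n : ℕ, ∃ m : ℤ, qCoeff f n = ((3 * m : ℤ) : ℂ)

theorem isThreeDiv_zsmul_three {f : CuspForm (Gamma0 N) k} (hf : f ∈ CuspForm.intLattice N k) :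
    IsThreeDiv ((3 : ℤ) • f) := by
  intro n
  obtain ⟨m, hm⟩ := (mem_intLattice_iff f).1 hf n
  exact ⟨m, by rw [qCoeff_zsmul, hm]; push_cast; ring⟩

theorem IsThreeDiv.exists_eq_zsmul {f : CuspForm (Gamma0 N) k} (hf : IsThreeDiv f) :
    ∃ g ∈ CuspForm.intLattice N k, f = (3 : ℤ) • g := by
  refine ⟨((3 : ℂ)⁻¹) • f, ?_, ?_⟩
  · rw [mem_intLattice_iff]
    intro n
    obtain ⟨m, hm⟩ := hf n
    refine ⟨m, ?_⟩
    rw [qCoeff_smul, hm]
    push_cast
    field_simp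
  · have h1 : ((3 : ℤ) • ((3 : ℂ)⁻¹ • f)) = ((3 : ℤ) : ℂ) • ((3 : ℂ)⁻¹ • f) := by
      ext z
      simp
    rw [h1, smul_smul]
    norm_num

theorem IsThreeDiv.add {f g : CuspForm (Gamma0 N) k} (hf : IsThreeDiv f) (hg : IsThreeDiv g) :
    IsThreeDiv (f + g) := by
  intro n
  obtain ⟨a, ha⟩ := hf n
  obtain ⟨b, hb⟩ := hg n
  exact ⟨a + b, by rw [qCoeff_add, ha, hb]; push_cast; ring⟩

theorem isThreeDiv_zero : IsThreeDiv (0 : CuspForm (Gamma0 N) k) := by
  intro n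
  exact ⟨0, by rw [qCoeff_zero']; simp⟩

theorem IsThreeDiv.hecke [NeZero N] {f : CuspForm (Gamma0 N) 2} (hf : IsThreeDiv f)
    {S : Set ℕ} {t : Module.End ℂ (CuspForm (Gamma0 N) 2)} (ht : t ∈ CuspForm.heckeAlgebra N 2 S) :
    IsThreeDiv (t f) := by
  obtain ⟨g, hg, rfl⟩ := hf.exists_eq_zsmul
  rw [map_zsmul]
  exact isThreeDiv_zsmul_three
    (CuspForm.mem_intLattice_of_mem_heckeAlgebra (by norm_num) ht hg)

/-! ### arithmetic modulo three -/

theorem three_dvd_sub_chi (l : ℕ) : (3 : ℤ) ∣ (l : ℤ) - chiNegThree l := by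
  unfold chiNegThree
  split_ifs <;> omega

theorem e1Chi3In_int_eq :
    e1Chi3In ℤ = 1 + (3 : ℤ) • PowerSeries.mk (fun j => if j = 0 then 0 else 2 * sigmaChi j) := by
  ext j
  simp only [e1Chi3In, e1Chi3, PowerSeries.coeff_map, PowerSeries.coeff_mk, map_add,
    PowerSeries.coeff_one, map_zsmul, Int.coe_castRingHom, Int.cast_id, smul_eq_mul]
  split_ifs <;> ring

theorem three_dvd_bridge_sub (a : ℕ → ℤ) (n : ℕ) :
    (3 : ℤ) ∣ (bridgeProduct a).coeff n - a n := by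
  unfold bridgeProduct
  rw [e1Chi3In_int_eq, mul_add, mul_one, mul_smul_comm, map_add, PowerSeries.coeff_mk,
    map_zsmul, add_sub_cancel_left, smul_eq_mul]
  exact dvd_mul_right _ _

/-! ### the realising form -/

theorem exists_realizing_form {a : ℕ → ℤ} (hreal : CuspForm.IsLatticeRealized N a) :
    ∃ (f : CuspForm (Gamma0 N) 2) (af : ℕ → ℤ),
      (∀ n, qCoeff f n = (af n : ℂ)) ∧ ∀ n, (3 : ℤ) ∣ af n - a n := by
  obtain ⟨f, -, af, haf, h3⟩ := hreal
  refine ⟨f, af, fun n => (haf n).symm, fun n => ?_⟩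
  have h1 := three_dvd_bridge_sub a n
  have h2 := h3 n
  have : af n - a n = (af n - (bridgeProduct a).coeff n) + ((bridgeProduct a).coeff n - a n) := by
    ring
  rw [this]
  exact dvd_add h2 h1

theorem qCoeff_heckeTLin {f : CuspForm (Gamma0 N) 2} {l : ℕ} (hl : l.Prime) (hlN : ¬ l ∣ N)
    (m : ℕ) :
    qCoeff (CuspForm.heckeTLin 2 hl hlN f) m =
      qCoeff f (m * l) + if l ∣ m then (l : ℂ) * qCoeff f (m / l) else 0 := by
  rw [CuspForm.coe_heckeTLin_apply, ModularFormClass.qCoeff_heckeT f (hΓ N) hl.ne_zero m,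
    ModularForm.coeffHeckeT_apply]
  norm_num

theorem qCoeff_heckeULin [NeZero N] {f : CuspForm (Gamma0 N) 2} {q : ℕ} (hq : q.Prime)
    (hqN : q ∣ N) (m : ℕ) :
    qCoeff (CuspForm.heckeULin 2 hqN f) m = qCoeff f (m * q) := by
  rw [CuspForm.coe_heckeULin_apply, ModularFormClass.qCoeff_heckeU f (hΓ N) hq.ne_zero m,
    ModularForm.coeffHeckeU_apply]

section eigen

variable {a : ℕ → ℤ}
  (heig : FormalHecke.IsEigensystem
    (fun ℓ => if ℓ ∣ N then 0 else ((chiNegThree ℓ : ℤ) : ℤ)) a)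
  {f : CuspForm (Gamma0 N) 2} {af : ℕ → ℤ} (haf : ∀ n, qCoeff f n = (af n : ℂ))
  (h3 : ∀ n, (3 : ℤ) ∣ af n - a n)

include heig haf h3

theorem isThreeDiv_heckeT_sub {l : ℕ} (hl : l.Prime) (hlN : ¬ l ∣ N) :
    IsThreeDiv (CuspForm.heckeTLin 2 hl hlN f - (a l) • f) := by
  intro m
  have hrel := heig.2 l hl m
  simp only [if_neg hlN] at hrel
  obtain ⟨u1, hu1⟩ := h3 (m * l)
  obtain ⟨u3, hu3⟩ := h3 m
  obtain ⟨u4, hu4⟩ := three_dvd_sub_chi l
  rw [qCoeff_sub, qCoeff_zsmul, qCoeff_heckeTLin]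
  simp only [haf]
  rw [mul_comm l m] at hrel
  by_cases hlm : l ∣ m
  · obtain ⟨u2, hu2⟩ := h3 (m / l)
    simp only [if_pos hlm] at hrel ⊢
    refine ⟨u1 + l * u2 + u4 * a (m / l) - a l * u3, ?_⟩
    have : af (m * l) + (l : ℤ) * af (m / l) - a l * af m =
        3 * (u1 + l * u2 + u4 * a (m / l) - a l * u3) := by
      linear_combination hu1 + (l : ℤ) * hu2 + a (m / l) * hu4 - a l * hu3 + hrel
    exact_mod_cast congrArg (Int.cast : ℤ → ℂ) this
  · simp only [if_neg hlm, mul_zero, add_zero] at hrel ⊢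
    refine ⟨u1 - a l * u3, ?_⟩
    have : af (m * l) - a l * af m = 3 * (u1 - a l * u3) := by
      linear_combination hu1 - a l * hu3 + hrel
    exact_mod_cast congrArg (Int.cast : ℤ → ℂ) this

theorem isThreeDiv_heckeU_sub [NeZero N] {q : ℕ} (hq : q.Prime) (hqN : q ∣ N) :
    IsThreeDiv (CuspForm.heckeULin 2 hqN f - (a q) • f) := by
  intro m
  have hrel := heig.2 q hq m
  simp only [if_pos hqN, zero_mul, add_zero] at hrel
  obtain ⟨u1, hu1⟩ := h3 (m * q)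
  obtain ⟨u3, hu3⟩ := h3 m
  rw [qCoeff_sub, qCoeff_zsmul, qCoeff_heckeULin hq]
  simp only [haf]
  rw [mul_comm q m] at hrel
  refine ⟨u1 - a q * u3, ?_⟩
  have : af (m * q) - a q * af m = 3 * (u1 - a q * u3) := by
    linear_combination hu1 - a q * hu3 + hrel
  exact_mod_cast congrArg (Int.cast : ℤ → ℂ) this

theorem not_isThreeDiv_self : ¬ IsThreeDiv f := by
  intro h
  obtain ⟨m, hm⟩ := h 1
  rw [haf] at hm
  have hm' : af 1 = 3 * m := by exact_mod_cast hm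
  obtain ⟨u, hu⟩ := h3 1
  rw [heig.1] at hu
  omega

end eigen

/-! ### the ideal of Hecke operators killing `f` modulo three -/

section ideal

variable [NeZero N]

/-- operators `t` in the full Hecke ring such that `t f` is divisible by three -/
def threeIdeal (f : CuspForm (Gamma0 N) 2) : Ideal (CuspForm.heckeAlgebra N 2 (∅ : Set ℕ)) where
  carrier := {t | IsThreeDiv ((t : Module.End ℂ (CuspForm (Gamma0 N) 2)) f)}
  add_mem' {s t} hs ht := by
    show IsThreeDiv (((s + t : CuspForm.heckeAlgebra N 2 (∅ : Set ℕ)) :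
      Module.End ℂ (CuspForm (Gamma0 N) 2)) f)
    have : ((s + t : CuspForm.heckeAlgebra N 2 (∅ : Set ℕ)) :
      Module.End ℂ (CuspForm (Gamma0 N) 2)) = s.1 + t.1 := rfl
    rw [this, LinearMap.add_apply]
    exact IsThreeDiv.add hs ht
  zero_mem' := by
    show IsThreeDiv (((0 : CuspForm.heckeAlgebra N 2 (∅ : Set ℕ)) :
      Module.End ℂ (CuspForm (Gamma0 N) 2)) f)
    have : ((0 : CuspForm.heckeAlgebra N 2 (∅ : Set ℕ)) :
      Module.End ℂ (CuspForm (Gamma0 N) 2)) = 0 := rfl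
    rw [this, LinearMap.zero_apply]
    exact isThreeDiv_zero
  smul_mem' s {t} ht := by
    show IsThreeDiv (((s • t : CuspForm.heckeAlgebra N 2 (∅ : Set ℕ)) :
      Module.End ℂ (CuspForm (Gamma0 N) 2)) f)
    have : ((s • t : CuspForm.heckeAlgebra N 2 (∅ : Set ℕ)) :
      Module.End ℂ (CuspForm (Gamma0 N) 2)) = s.1 * t.1 := rfl
    rw [this, Module.End.mul_apply]
    exact IsThreeDiv.hecke ht s.2

theorem mem_threeIdeal {f : CuspForm (Gamma0 N) 2}
    {t : CuspForm.heckeAlgebra N 2 (∅ : Set ℕ)} :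
    t ∈ threeIdeal f ↔ IsThreeDiv ((t : Module.End ℂ (CuspForm (Gamma0 N) 2)) f) := Iff.rfl

theorem threeIdeal_ne_top {f : CuspForm (Gamma0 N) 2} (hf : ¬ IsThreeDiv f) :
    threeIdeal f ≠ ⊤ := by
  intro h
  apply hf
  have h1 : (1 : CuspForm.heckeAlgebra N 2 (∅ : Set ℕ)) ∈ threeIdeal f := by
    rw [h]; trivial
  rw [mem_threeIdeal] at h1
  have : ((1 : CuspForm.heckeAlgebra N 2 (∅ : Set ℕ)) :
      Module.End ℂ (CuspForm (Gamma0 N) 2)) = 1 := rfl
  rwa [this, Module.End.one_apply] at h1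

theorem coe_intCast_apply (z : ℤ) (f : CuspForm (Gamma0 N) 2) :
    (((z : CuspForm.heckeAlgebra N 2 (∅ : Set ℕ)) :
      Module.End ℂ (CuspForm (Gamma0 N) 2))) f = z • f := by
  have : ((z : CuspForm.heckeAlgebra N 2 (∅ : Set ℕ)) :
      Module.End ℂ (CuspForm (Gamma0 N) 2)) = (z : Module.End ℂ (CuspForm (Gamma0 N) 2)) := by
    rfl
  rw [this]
  simp

theorem three_mem_threeIdeal {f : CuspForm (Gamma0 N) 2} (hf : f ∈ CuspForm.intLattice N 2) :
    ((3 : ℕ) : CuspForm.heckeAlgebra N 2 (∅ : Set ℕ)) ∈ threeIdeal f := by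
  rw [mem_threeIdeal]
  have : ((3 : ℕ) : CuspForm.heckeAlgebra N 2 (∅ : Set ℕ)) =
      ((3 : ℤ) : CuspForm.heckeAlgebra N 2 (∅ : Set ℕ)) := by norm_num
  rw [this, coe_intCast_apply]
  exact isThreeDiv_zsmul_three hf

section eigen

variable {a : ℕ → ℤ}
  (heig : FormalHecke.IsEigensystem
    (fun ℓ => if ℓ ∣ N then 0 else ((chiNegThree ℓ : ℤ) : ℤ)) a)
  {f : CuspForm (Gamma0 N) 2} {af : ℕ → ℤ} (haf : ∀ n, qCoeff f n = (af n : ℂ))
  (h3 : ∀ n, (3 : ℤ) ∣ af n - a n)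

include heig haf h3

theorem heckeT_sub_mem_threeIdeal {l : ℕ} (hl : l.Prime) (hlN : ¬ l ∣ N) :
    (CuspForm.heckeAlgebra.T hl hlN (Set.notMem_empty l) -
      (a l : CuspForm.heckeAlgebra N 2 (∅ : Set ℕ))) ∈ threeIdeal f := by
  rw [mem_threeIdeal]
  have : ((CuspForm.heckeAlgebra.T hl hlN (Set.notMem_empty l) -
      (a l : CuspForm.heckeAlgebra N 2 (∅ : Set ℕ)) : CuspForm.heckeAlgebra N 2 (∅ : Set ℕ)) :
      Module.End ℂ (CuspForm (Gamma0 N) 2)) =
      CuspForm.heckeTLin 2 hl hlN -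
        ((a l : CuspForm.heckeAlgebra N 2 (∅ : Set ℕ)) :
          Module.End ℂ (CuspForm (Gamma0 N) 2)) := rfl
  rw [this, LinearMap.sub_apply, coe_intCast_apply]
  exact isThreeDiv_heckeT_sub heig haf h3 hl hlN

theorem heckeU_sub_mem_threeIdeal {q : ℕ} (hq : q.Prime) (hqN : q ∣ N) :
    (CuspForm.heckeAlgebra.U hq hqN (Set.notMem_empty q) -
      (a q : CuspForm.heckeAlgebra N 2 (∅ : Set ℕ))) ∈ threeIdeal f := by
  rw [mem_threeIdeal]
  have : ((CuspForm.heckeAlgebra.U hq hqN (Set.notMem_empty q) -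
      (a q : CuspForm.heckeAlgebra N 2 (∅ : Set ℕ)) : CuspForm.heckeAlgebra N 2 (∅ : Set ℕ)) :
      Module.End ℂ (CuspForm (Gamma0 N) 2)) =
      CuspForm.heckeULin 2 hqN -
        ((a q : CuspForm.heckeAlgebra N 2 (∅ : Set ℕ)) :
          Module.End ℂ (CuspForm (Gamma0 N) 2)) := rfl
  rw [this, LinearMap.sub_apply, coe_intCast_apply]
  exact isThreeDiv_heckeU_sub heig haf h3 hq hqN

omit heig h3 [NeZero N] in
theorem mem_intLattice_of_coeff : f ∈ CuspForm.intLattice N 2 := by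
  rw [mem_intLattice_iff]
  exact fun n => ⟨af n, haf n⟩

end eigen

/-- Packaged output of this file. -/
theorem exists_ideal {a : ℕ → ℤ}
    (heig : FormalHecke.IsEigensystem
      (fun ℓ => if ℓ ∣ N then 0 else ((chiNegThree ℓ : ℤ) : ℤ)) a)
    (hreal : CuspForm.IsLatticeRealized N a) :
    ∃ n : Ideal (CuspForm.heckeAlgebra N 2 (∅ : Set ℕ)), n ≠ ⊤ ∧
      ((3 : ℕ) : CuspForm.heckeAlgebra N 2 (∅ : Set ℕ)) ∈ n ∧
      (∀ (l : ℕ) (hl : l.Prime) (hlN : ¬ l ∣ N),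
        (CuspForm.heckeAlgebra.T hl hlN (Set.notMem_empty l) -
          (a l : CuspForm.heckeAlgebra N 2 (∅ : Set ℕ))) ∈ n) ∧
      (∀ (q : ℕ) (hq : q.Prime) (hqN : q ∣ N),
        (CuspForm.heckeAlgebra.U hq hqN (Set.notMem_empty q) -
          (a q : CuspForm.heckeAlgebra N 2 (∅ : Set ℕ))) ∈ n) := by
  obtain ⟨f, af, haf, h3⟩ := exists_realizing_form hreal
  exact ⟨threeIdeal f, threeIdeal_ne_top (not_isThreeDiv_self heig haf h3),
    three_mem_threeIdeal (mem_intLattice_of_coeff haf),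
    fun l hl hlN => heckeT_sub_mem_threeIdeal heig haf h3 hl hlN,
    fun q hq hqN => heckeU_sub_mem_threeIdeal heig haf h3 hq hqN⟩

end ideal

end

end Fermat.Agent.S49.Realize
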