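import Mathlib

set_option autoImplicit false

namespace Fermat.Agent.S49.Lifting

open Module

/-- Commuting endomorphisms of a nonzero finite-dimensional space over an algebraically closed
field, all stabilising a nonzero subspace `U`, have a common eigenvector in `U`. -/
theorem exists_common_eigenvector_in_submodule {K W ι : Type*} [Field K] [IsAlgClosed K]
    [AddCommGroup W] [Module K W] [FiniteDimensional K W]
    (g : ι → End K W) (hg : ∀ i j, g i * g j = g j * g i) :
    ∀ (n : ℕ) (U : Submodule K W), finrank K U = n → U ≠ ⊥ → (∀ i, ∀ x ∈ U, g i x ∈ U) →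
      ∃ w ∈ U, w ≠ 0 ∧ ∀ i, ∃ c : K, g i w = c • w := by
  intro n
  induction n using Nat.strong_induction_on with
  | _ n ih =>
    intro U hn hU hstab
    by_cases hsc : ∀ i, ∃ c : K, ∀ w ∈ U, g i w = c • w
    · obtain ⟨w, hwU, hw0⟩ := (Submodule.ne_bot_iff U).mp hU
      exact ⟨w, hwU, hw0, fun i => (hsc i).imp fun c hc => hc w hwU⟩
    · push_neg at hsc
      obtain ⟨i, hi⟩ := hsc
      -- eigenvalue of the restriction of `g i` to `U`
      have : Nontrivial U := Submodule.nontrivial_iff_ne_bot.mpr hU
      obtain ⟨c, hc⟩ := Module.End.exists_eigenvalue ((g i).restrict (hstab i))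
      obtain ⟨v, hv⟩ := hc.exists_hasEigenvector
      -- the c-eigenspace of g i inside U
      let U' : Submodule K W := U ⊓ (g i).eigenspace c
      have hU'le : U' ≤ U := inf_le_left
      have hvU' : (v : W) ∈ U' := by
        refine ⟨v.2, ?_⟩
        rw [SetLike.mem_coe, Module.End.mem_eigenspace_iff]
        have := hv.apply_eq_smul
        have h2 := congrArg Subtype.val this
        simpa using h2
      have hv0 : (v : W) ≠ 0 := fun h => hv.2 (Subtype.ext h)
      have hU'ne : U' ≠ ⊥ := fun h => hv0 (by
        have : (v : W) ∈ (⊥ : Submodule K W) := h ▸ hvU'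
        simpa using this)
      have hU'lt : U' < U := by
        refine lt_of_le_of_ne hU'le fun heq => ?_
        obtain ⟨w, hwU, hw⟩ := hi c
        apply hw
        have : w ∈ U' := heq ▸ hwU
        exact Module.End.mem_eigenspace_iff.mp this.2
      have hstab' : ∀ j, ∀ x ∈ U', g j x ∈ U' := by
        intro j x hx
        refine ⟨hstab j x hx.1, ?_⟩
        rw [SetLike.mem_coe, Module.End.mem_eigenspace_iff]
        have hx2 : g i x = c • x := Module.End.mem_eigenspace_iff.mp hx.2
        have hcomm : g i (g j x) = g j (g i x) := by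
          have := congrArg (fun f : End K W => f x) (hg i j)
          simpa [Module.End.mul_apply] using this
        rw [hcomm, hx2, map_smul]
      have hlt : finrank K U' < n := hn ▸ Submodule.finrank_lt_finrank_of_lt hU'lt
      obtain ⟨w, hwU', hw0, hw⟩ := ih _ hlt U' rfl hU'ne hstab'
      exact ⟨w, hU'le hwU', hw0, hw⟩

/-- Commuting endomorphisms of a nonzero finite-dimensional space over an algebraically closed
field have a common eigenvector. -/
theorem exists_common_eigenvector {K W ι : Type*} [Field K] [IsAlgClosed K]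
    [AddCommGroup W] [Module K W] [FiniteDimensional K W] [Nontrivial W]
    (g : ι → End K W) (hg : ∀ i j, g i * g j = g j * g i) :
    ∃ w : W, w ≠ 0 ∧ ∀ i, ∃ c : K, g i w = c • w := by
  obtain ⟨w, -, hw0, hw⟩ := exists_common_eigenvector_in_submodule g hg _ ⊤ rfl top_ne_bot
    (fun _ _ _ => Submodule.mem_top)
  exact ⟨w, hw0, hw⟩

end Fermat.Agent.S49.Lifting
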