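import Mathlib

set_option autoImplicit false
set_option linter.style.haveILetI false

namespace Fermat.Agent.S49.DSLift

theorem exists_eigenvector_of_algHom {A : Type*} [CommRing A] [Algebra ℂ A] [Module.Finite ℂ A]
    {V : Type*} [AddCommGroup V] [Module ℂ V]
    (φ : A →ₐ[ℂ] Module.End ℂ V) (hφ : Function.Injective φ) (χ : A →ₐ[ℂ] ℂ) :
    ∃ f : V, f ≠ 0 ∧ ∀ t : A, φ t f = χ t • f := by
  haveI : IsArtinianRing A := IsArtinianRing.of_finite ℂ A
  have hsurj : Function.Surjective (χ : A →+* ℂ) := fun z => ⟨algebraMap ℂ A z, by simp⟩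
  haveI hmax : (RingHom.ker (χ : A →+* ℂ)).IsMaximal := RingHom.ker_isMaximal_of_surjective _ hsurj
  set M := RingHom.ker (χ : A →+* ℂ) with hM
  have hmin : M ∈ minimalPrimes A := Ideal.mem_minimalPrimes_of_krullDimLE_zero M
  have hann : Module.annihilator A A = ⊥ := by
    rw [eq_bot_iff]
    intro a ha
    rw [Module.mem_annihilator] at ha
    simpa using ha 1
  have hass : M ∈ associatedPrimes A A := by
    apply Module.associatedPrimes.minimalPrimes_annihilator_subset_associatedPrimes A A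
    rw [hann]
    exact hmin
  rw [AssociatedPrimes.mem_iff, isAssociatedPrime_iff] at hass
  obtain ⟨-, y, hy⟩ := hass
  have hy0 : y ≠ 0 := by
    rintro rfl
    have : (1 : A) ∈ M := by
      rw [hy, Submodule.mem_colon_singleton]; simp
    exact hmax.ne_top ((Ideal.eq_top_iff_one _).2 this)
  have hφy : φ y ≠ 0 := fun h => hy0 (hφ (by simpa using h))
  obtain ⟨v, hv⟩ : ∃ v, φ y v ≠ 0 := by
    by_contra hcon
    exact hφy (LinearMap.ext fun v => by
      by_contra hv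
      exact hcon ⟨v, hv⟩)
  refine ⟨φ y v, hv, fun t => ?_⟩
  have hmem : t - algebraMap ℂ A (χ t) ∈ M := by
    rw [hM, RingHom.mem_ker]; simp
  rw [hy, Submodule.mem_colon_singleton] at hmem
  have h0 : (t - algebraMap ℂ A (χ t)) * y = 0 := by simpa using hmem
  have : φ ((t - algebraMap ℂ A (χ t)) * y) v = 0 := by rw [h0]; simp
  rw [map_mul, map_sub, AlgHom.commutes] at this
  simp only [Module.End.mul_apply, LinearMap.sub_apply, Module.algebraMap_end_apply] at this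
  exact sub_eq_zero.mp this


theorem exists_character_lift {R A : Type*} [CommRing R] [CommRing A] [Algebra ℂ A]
    [Module.Finite ℂ A]
    (j : R →+* A) (hj : Function.Injective j) [Algebra.IsIntegral ℤ R]
    (𝔫 : Ideal R) [h𝔫 : 𝔫.IsMaximal] :
    ∃ (χ : A →ₐ[ℂ] ℂ) (𝔪 : Ideal (integralClosure ℤ ℂ)), 𝔪.IsMaximal ∧
      ∀ t : R, ∃ c : integralClosure ℤ ℂ, (c : ℂ) = χ (j t) ∧ (t ∈ 𝔫 → c ∈ 𝔪) := by
  have : IsArtinianRing A := IsArtinianRing.of_finite ℂ A
  obtain ⟨𝔭, h𝔭min, h𝔭le⟩ := Ideal.exists_minimalPrimes_le (bot_le : (⊥ : Ideal R) ≤ 𝔫)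
  obtain ⟨M, hMprime, hMcomap⟩ :=
    Ideal.exists_comap_eq_of_mem_minimalPrimes_of_injective hj 𝔭 h𝔭min
  have hMmax : M.IsMaximal := IsArtinianRing.isMaximal_of_isPrime M
  letI : Field (A ⧸ M) := Ideal.Quotient.field M
  have hbij : Function.Bijective (algebraMap ℂ (A ⧸ M)) :=
    IsAlgClosed.algebraMap_bijective_of_isIntegral
  let e : ℂ ≃ₐ[ℂ] (A ⧸ M) := AlgEquiv.ofBijective (Algebra.ofId ℂ (A ⧸ M)) hbij
  let χ : A →ₐ[ℂ] ℂ := (e.symm : (A ⧸ M) →ₐ[ℂ] ℂ).comp (Ideal.Quotient.mkₐ ℂ M)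
  have hχker : ∀ x : A, χ x = 0 ↔ x ∈ M := by
    intro x
    have h1 : χ x = e.symm (Ideal.Quotient.mk M x) := rfl
    rw [h1, EmbeddingLike.map_eq_zero_iff]
    exact Ideal.Quotient.eq_zero_iff_mem
  let θ : R →+* ℂ := (χ : A →+* ℂ).comp j
  have hθint : ∀ t : R, θ t ∈ integralClosure ℤ ℂ := fun t =>
    map_isIntegral_int θ (Algebra.IsIntegral.isIntegral t)
  let θ' : R →+* integralClosure ℤ ℂ := θ.codRestrict (integralClosure ℤ ℂ) hθint
  have hθ'ker : RingHom.ker θ' = 𝔭 := by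
    ext t
    rw [RingHom.mem_ker, ← hMcomap, Ideal.mem_comap, ← hχker]
    constructor
    · intro h
      have := congrArg Subtype.val h
      simpa [θ', θ] using this
    · intro h
      apply Subtype.ext
      simpa [θ', θ] using h
  letI : Algebra R (integralClosure ℤ ℂ) := θ'.toAlgebra
  have : Algebra.IsIntegral R (integralClosure ℤ ℂ) := Algebra.IsIntegral.tower_top (R := ℤ)
  obtain ⟨𝔪, h𝔪max, h𝔪comap⟩ := Ideal.exists_ideal_over_maximal_of_isIntegral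
    (S := integralClosure ℤ ℂ) 𝔫 (by
      change RingHom.ker θ' ≤ 𝔫
      rw [hθ'ker]; exact h𝔭le)
  refine ⟨χ, 𝔪, h𝔪max, fun t => ⟨θ' t, rfl, fun ht => ?_⟩⟩
  have : t ∈ 𝔪.comap (algebraMap R (integralClosure ℤ ℂ)) := by rw [h𝔪comap]; exact ht
  exact this


variable {V : Type*} [AddCommGroup V] [Module ℂ V]

theorem finiteDimensional_of_lattice
    (L : Submodule ℤ V) (hLfg : L.FG) (hLspan : Submodule.span ℂ (L : Set V) = ⊤) :
    FiniteDimensional ℂ V := by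
  obtain ⟨S, hS⟩ := hLfg
  refine Module.finite_def.2 ⟨S, ?_⟩
  rw [eq_top_iff, ← hLspan]
  apply Submodule.span_le.2
  intro x hx
  rw [← hS] at hx
  have : (Submodule.span ℤ (S : Set V) : Set V) ⊆ Submodule.span ℂ (S : Set V) :=
    Submodule.span_le_restrictScalars ℤ ℂ (S : Set V)
  exact this hx

theorem finite_int_of_preserves_lattice
    (L : Submodule ℤ V) (hLfg : L.FG) (hLspan : Submodule.span ℂ (L : Set V) = ⊤)
    {R : Type*} [CommRing R] (ρ : R →+* Module.End ℂ V) (hρ : Function.Injective ρ)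
    (hRL : ∀ t : R, ∀ x ∈ L, ρ t x ∈ L) : Module.Finite ℤ R := by
  have hLfg' := hLfg
  obtain ⟨S, hS⟩ := hLfg
  have hSL : ∀ s : S, (s : V) ∈ L := fun s => hS ▸ Submodule.subset_span s.2
  let Φ : R →ₗ[ℤ] (S → L) :=
    { toFun := fun t s => ⟨ρ t s, hRL t s (hSL s)⟩
      map_add' := fun t u => by
        funext s; apply Subtype.ext; simp
      map_smul' := fun n t => by
        funext s; apply Subtype.ext; simp }
  have hΦ : Function.Injective Φ := by
    rw [injective_iff_map_eq_zero]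
    intro t ht
    apply hρ
    rw [map_zero]
    apply LinearMap.ext_on hLspan
    intro x hx
    have hx' : x ∈ Submodule.span ℤ (S : Set V) := by rw [hS]; exact hx
    simp only [LinearMap.zero_apply]
    induction hx' using Submodule.span_induction with
    | mem y hy =>
      have := congrFun ht ⟨y, hy⟩
      have := congrArg Subtype.val this
      simpa [Φ] using this
    | zero => simp
    | add y z _ _ hy hz =>
      rw [map_add, hy (by rw [← hS]; assumption), hz (by rw [← hS]; assumption), add_zero]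
    | smul n y _ hy =>
      rw [map_zsmul, hy (by rw [← hS]; assumption), smul_zero]
  haveI : Module.Finite ℤ L := Module.Finite.iff_fg.2 hLfg'
  haveI : IsNoetherian ℤ L := inferInstance
  haveI : IsNoetherian ℤ (S → L) := inferInstance
  exact Module.Finite.of_injective Φ hΦ


theorem exists_maximal_ideal_of_mod_p_eigen
    (L : Submodule ℤ V) {R : Type*} [CommRing R] (ρ : R →+* Module.End ℂ V)
    (hRL : ∀ t : R, ∀ x ∈ L, ρ t x ∈ L)
    (p : ℕ) (hp : p.Prime) (g : V) (hgL : g ∈ L) (hg : ¬ ∃ h ∈ L, g = (p : ℤ) • h)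
    (hR : ∀ t : R, ∃ c : ℤ, ∃ h ∈ L, ρ t g - c • g = (p : ℤ) • h) :
    ∃ 𝔫 : Ideal R, 𝔫.IsMaximal ∧ (p : R) ∈ 𝔫 ∧
      ∀ (t : R) (c : ℤ), (∃ h ∈ L, ρ t g - c • g = (p : ℤ) • h) → t - (c : R) ∈ 𝔫 := by
  have hint : ∀ c : ℤ, ρ (c : R) g = c • g := by
    intro c
    rw [map_intCast]
    simp
  let 𝔫 : Ideal R :=
    { carrier := {t | ∃ h ∈ L, ρ t g = (p : ℤ) • h}
      zero_mem' := ⟨0, L.zero_mem, by simp⟩
      add_mem' := by
        rintro t u ⟨h1, hh1, e1⟩ ⟨h2, hh2, e2⟩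
        exact ⟨h1 + h2, L.add_mem hh1 hh2, by rw [map_add, LinearMap.add_apply, e1, e2, smul_add]⟩
      smul_mem' := by
        rintro s t ⟨h1, hh1, e1⟩
        refine ⟨ρ s h1, hRL s h1 hh1, ?_⟩
        rw [smul_eq_mul, map_mul, Module.End.mul_apply, e1, map_zsmul] }
  have hmem : ∀ t : R, t ∈ 𝔫 ↔ ∃ h ∈ L, ρ t g = (p : ℤ) • h := fun t => Iff.rfl
  have hsub : ∀ (t : R) (c : ℤ), (∃ h ∈ L, ρ t g - c • g = (p : ℤ) • h) → t - (c : R) ∈ 𝔫 := by
    rintro t c ⟨h, hh, e⟩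
    refine ⟨h, hh, ?_⟩
    rw [map_sub, LinearMap.sub_apply, hint, e]
  have hp𝔫 : (p : R) ∈ 𝔫 := by
    refine ⟨g, hgL, ?_⟩
    simp
  refine ⟨𝔫, ?_, hp𝔫, hsub⟩
  rw [Ideal.isMaximal_iff]
  refine ⟨?_, ?_⟩
  · rintro ⟨h, hh, e⟩
    apply hg
    refine ⟨h, hh, ?_⟩
    rw [← e, map_one, Module.End.one_apply]
  · intro J x h𝔫J hx𝔫 hxJ
    obtain ⟨c, h, hh, e⟩ := hR x
    have hxc : x - (c : R) ∈ 𝔫 := hsub x c ⟨h, hh, e⟩
    have hcJ : (c : R) ∈ J := by
      have := J.sub_mem hxJ (h𝔫J hxc)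
      simpa using this
    have hpc : ¬ (p : ℤ) ∣ c := by
      rintro ⟨c', rfl⟩
      apply hx𝔫
      refine ⟨h + c' • g, L.add_mem hh (L.smul_mem c' hgL), ?_⟩
      rw [smul_add, ← e, smul_smul]
      abel
    have hcop : IsCoprime c (p : ℤ) := by
      rw [isCoprime_comm]
      exact (Nat.prime_iff_prime_int.mp hp).coprime_iff_not_dvd.2 hpc
    obtain ⟨u, v, huv⟩ := hcop
    have : ((u * c + v * p : ℤ) : R) ∈ J := by
      push_cast
      exact J.add_mem (J.mul_mem_left _ hcJ) (J.mul_mem_left _ (h𝔫J hp𝔫))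
    rw [huv] at this
    simpa using this


set_option linter.deprecated false in
theorem exists_eigenvector_lift
    (L : Submodule ℤ V) (hLfg : L.FG) (hLspan : Submodule.span ℂ (L : Set V) = ⊤)
    {ι : Type*} (T : ι → Module.End ℂ V)
    (hcomm : ∀ i j, Commute (T i) (T j))
    (hTL : ∀ i, ∀ x ∈ L, T i x ∈ L)
    (p : ℕ) (hp : p.Prime)
    (g : V) (hgL : g ∈ L) (hg : ¬ ∃ h ∈ L, g = (p : ℤ) • h)
    (a : ι → ℤ) (ha : ∀ i, ∃ h ∈ L, T i g - a i • g = (p : ℤ) • h) :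
    ∃ (f : V) (𝔪 : Ideal (integralClosure ℤ ℂ)) (c : ι → integralClosure ℤ ℂ),
      f ≠ 0 ∧ 𝔪.IsMaximal ∧ ((p : ℕ) : integralClosure ℤ ℂ) ∈ 𝔪 ∧
      ∀ i, T i f = (c i : ℂ) • f ∧ c i - (a i : integralClosure ℤ ℂ) ∈ 𝔪 := by
  have hfd : FiniteDimensional ℂ V := finiteDimensional_of_lattice L hLfg hLspan
  let A : Subalgebra ℂ (Module.End ℂ V) := Algebra.adjoin ℂ (Set.range T)
  letI : CommRing A := Algebra.adjoinCommRingOfComm ℂ (by
    rintro _ ⟨i, rfl⟩ _ ⟨j, rfl⟩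
    exact hcomm i j)
  let Ti : ι → A := fun i => ⟨T i, Algebra.subset_adjoin ⟨i, rfl⟩⟩
  let R : Subalgebra ℤ A := Algebra.adjoin ℤ (Set.range Ti)
  let φ : A →ₐ[ℂ] Module.End ℂ V := A.val
  have hφ : Function.Injective φ := Subtype.val_injective
  let j : R →+* A := R.val.toRingHom
  have hj : Function.Injective j := Subtype.val_injective
  let ρ : R →+* Module.End ℂ V := (φ : A →+* Module.End ℂ V).comp j
  have hρ : Function.Injective ρ := hφ.comp hj
  have hρTi : ∀ i (hi : Ti i ∈ R), ρ ⟨Ti i, hi⟩ = T i := fun i hi => rfl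
  -- every element of R preserves L
  have hRL : ∀ t : R, ∀ x ∈ L, ρ t x ∈ L := by
    rintro ⟨s, hs⟩
    induction hs using Algebra.adjoin_induction with
    | mem s hs =>
      obtain ⟨i, rfl⟩ := hs
      exact hTL i
    | algebraMap n =>
      intro x hx
      have : ρ ⟨algebraMap ℤ A n, Subalgebra.algebraMap_mem _ n⟩ = (n : Module.End ℂ V) := by
        have h1 : (⟨algebraMap ℤ A n, Subalgebra.algebraMap_mem _ n⟩ : R) = ((n : ℤ) : R) := by
          apply Subtype.ext; simp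
        rw [h1, map_intCast]
      rw [this]
      simpa using L.smul_mem n hx
    | add s u hs hu ihs ihu =>
      intro x hx
      have : ρ ⟨s + u, R.add_mem hs hu⟩ = ρ ⟨s, hs⟩ + ρ ⟨u, hu⟩ := by
        rw [← map_add]; rfl
      rw [this, LinearMap.add_apply]
      exact L.add_mem (ihs x hx) (ihu x hx)
    | mul s u hs hu ihs ihu =>
      intro x hx
      have : ρ ⟨s * u, R.mul_mem hs hu⟩ = ρ ⟨s, hs⟩ * ρ ⟨u, hu⟩ := by
        rw [← map_mul]; rfl
      rw [this, Module.End.mul_apply]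
      exact ihs _ (ihu x hx)
  -- every element of R acts on g by an integer modulo p L
  have hR : ∀ t : R, ∃ c : ℤ, ∃ h ∈ L, ρ t g - c • g = (p : ℤ) • h := by
    rintro ⟨s, hs⟩
    induction hs using Algebra.adjoin_induction with
    | mem s hs =>
      obtain ⟨i, rfl⟩ := hs
      exact ⟨a i, ha i⟩
    | algebraMap n =>
      refine ⟨n, 0, L.zero_mem, ?_⟩
      have : ρ ⟨algebraMap ℤ A n, Subalgebra.algebraMap_mem _ n⟩ = (n : Module.End ℂ V) := by
        have h1 : (⟨algebraMap ℤ A n, Subalgebra.algebraMap_mem _ n⟩ : R) = ((n : ℤ) : R) := by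
          apply Subtype.ext; simp
        rw [h1, map_intCast]
      rw [this]
      simp
    | add s u hs hu ihs ihu =>
      obtain ⟨c1, h1, hh1, e1⟩ := ihs
      obtain ⟨c2, h2, hh2, e2⟩ := ihu
      refine ⟨c1 + c2, h1 + h2, L.add_mem hh1 hh2, ?_⟩
      have : ρ ⟨s + u, R.add_mem hs hu⟩ = ρ ⟨s, hs⟩ + ρ ⟨u, hu⟩ := by
        rw [← map_add]; rfl
      rw [this, LinearMap.add_apply, smul_add, ← e1, ← e2, add_smul]
      abel
    | mul s u hs hu ihs ihu =>
      obtain ⟨c1, h1, hh1, e1⟩ := ihs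
      obtain ⟨c2, h2, hh2, e2⟩ := ihu
      refine ⟨c1 * c2, ρ ⟨s, hs⟩ h2 + c2 • h1, L.add_mem (hRL _ _ hh2) (L.smul_mem _ hh1), ?_⟩
      have : ρ ⟨s * u, R.mul_mem hs hu⟩ = ρ ⟨s, hs⟩ * ρ ⟨u, hu⟩ := by
        rw [← map_mul]; rfl
      rw [this, Module.End.mul_apply]
      have e2' : ρ ⟨u, hu⟩ g = c2 • g + (p : ℤ) • h2 := by rw [← e2]; abel
      have e1' : ρ ⟨s, hs⟩ g = c1 • g + (p : ℤ) • h1 := by rw [← e1]; abel
      rw [e2', map_add, map_zsmul, map_zsmul, e1', smul_add, smul_add, smul_smul, smul_smul,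
        smul_smul, mul_comm c2 c1, mul_comm c2 (p : ℤ)]
      abel
  have hfinR : Module.Finite ℤ R := finite_int_of_preserves_lattice L hLfg hLspan ρ hρ hRL
  have hintR : Algebra.IsIntegral ℤ R := Algebra.IsIntegral.of_finite ℤ R
  obtain ⟨𝔫, h𝔫max, hp𝔫, h𝔫sub⟩ :=
    exists_maximal_ideal_of_mod_p_eigen L ρ hRL p hp g hgL hg hR
  have hfinA : Module.Finite ℂ A := inferInstance
  obtain ⟨χ, 𝔪, h𝔪max, hχ⟩ := exists_character_lift j hj 𝔫
  obtain ⟨f, hf0, hf⟩ := exists_eigenvector_of_algHom φ hφ χ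
  have hTiR : ∀ i, Ti i ∈ R := fun i => Algebra.subset_adjoin ⟨i, rfl⟩
  choose c hc1 hc2 using hχ
  refine ⟨f, 𝔪, fun i => c ⟨Ti i, hTiR i⟩, hf0, h𝔪max, ?_, fun i => ⟨?_, ?_⟩⟩
  · have h1 := hc2 (p : R) hp𝔫
    have h2 : c (p : R) = ((p : ℕ) : integralClosure ℤ ℂ) := by
      apply Subtype.ext
      rw [hc1]
      simp
    rwa [h2] at h1
  · have := hf (Ti i)
    rw [hc1]
    exact this
  · have h1 := hc2 _ (h𝔫sub ⟨Ti i, hTiR i⟩ (a i) (ha i))
    have h2 : c (⟨Ti i, hTiR i⟩ - ((a i : ℤ) : R)) =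
        c ⟨Ti i, hTiR i⟩ - ((a i : ℤ) : integralClosure ℤ ℂ) := by
      apply Subtype.ext
      rw [hc1]
      simp [hc1]
    rwa [h2] at h1

end Fermat.Agent.S49.DSLift
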