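import Mathlib
import Fermat.Agent.S49.CommonEigenvector

set_option autoImplicit false

namespace Fermat.Agent.S49.Lifting

open Module

/-- A commutative ring `T`, finite over `ℤ`, acting faithfully on a complex vector space `V`:
for every prime `𝔫` of `T` there is a common eigenvector whose eigencharacter has kernel
inside `𝔫`. -/
theorem exists_eigenvector_character_le_prime
    {T V : Type*} [CommRing T] [Module.Finite ℤ T] [AddCommGroup V] [Module ℂ V]
    (ι : T →+* Module.End ℂ V) (hι : Function.Injective ι)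
    (𝔫 : Ideal T) [h𝔫 : 𝔫.IsPrime] :
    ∃ (f : V) (μ : T →+* ℂ), f ≠ 0 ∧ (∀ t, ι t f = μ t • f) ∧ RingHom.ker μ ≤ 𝔫 := by
  classical
  have : IsNoetherian ℤ T := inferInstance
  have : IsNoetherianRing T := isNoetherian_of_tower ℤ (inferInstance : IsNoetherian ℤ T)
  obtain ⟨𝔭, h𝔭min, h𝔭le⟩ := Ideal.exists_minimalPrimes_le (bot_le : (⊥ : Ideal T) ≤ 𝔫)
  have hann : Module.annihilator T T = ⊥ := by
    rw [eq_bot_iff]
    intro t ht
    have := Module.mem_annihilator.mp ht (1 : T)
    simpa using this
  have hass : 𝔭 ∈ associatedPrimes T T :=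
    Module.associatedPrimes.minimalPrimes_annihilator_subset_associatedPrimes T T
      (hann.symm ▸ h𝔭min)
  obtain ⟨h𝔭prime, s, hs⟩ := (isAssociatedPrime_iff).mp hass
  have hmem : ∀ t : T, t ∈ 𝔭 ↔ t * s = 0 := by
    intro t
    rw [hs, Submodule.mem_colon_singleton, Submodule.mem_bot, smul_eq_mul]
  have hs0 : s ≠ 0 := by
    rintro rfl
    apply h𝔭prime.ne_top
    rw [Ideal.eq_top_iff_one, hmem]
    simp
  have hιs : ι s ≠ 0 := fun h => hs0 (hι (by rw [h, map_zero]))
  obtain ⟨v, hv⟩ : ∃ v, ι s v ≠ 0 := by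
    by_contra hcon
    push Not at hcon
    exact hιs (LinearMap.ext fun v => by simpa using hcon v)
  -- the additive map t ↦ ι (t * s) v
  let φ : T →ₗ[ℤ] V :=
    { toFun := fun t => ι (t * s) v
      map_add' := fun a b => by simp [add_mul]
      map_smul' := fun m a => by
        simp only [smul_mul_assoc, eq_intCast, Int.cast_id]
        rw [map_zsmul]
        rfl }
  have hφ : ∀ t, φ t = ι (t * s) v := fun _ => rfl
  let W : Submodule ℂ V := Submodule.span ℂ (Set.range φ)
  -- W is finite dimensional
  obtain ⟨S, hS⟩ := (Module.Finite.fg_top : (⊤ : Submodule ℤ T).FG)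
  have hrange : (LinearMap.range φ : Set V) = Set.range φ := rfl
  have hWfin : W = Submodule.span ℂ (φ '' (S : Set T)) := by
    have h1 : LinearMap.range φ = Submodule.span ℤ (φ '' (S : Set T)) := by
      rw [LinearMap.range_eq_map, ← hS, Submodule.map_span]
    show Submodule.span ℂ (Set.range φ) = _
    rw [← hrange, h1, Submodule.span_span_of_tower]
  have : FiniteDimensional ℂ W := by
    rw [hWfin]
    exact FiniteDimensional.span_of_finite ℂ (S.finite_toSet.image φ)
  -- W is stable
  have hstab : ∀ t : T, ∀ x ∈ W, ι t x ∈ W := by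
    intro t x hx
    refine Submodule.span_induction ?_ ?_ ?_ ?_ hx
    · rintro _ ⟨u, rfl⟩
      apply Submodule.subset_span
      refine ⟨t * u, ?_⟩
      rw [hφ, hφ, mul_assoc, map_mul]
      rfl
    · simp
    · intro x y _ _ hx hy
      rw [map_add]
      exact Submodule.add_mem _ hx hy
    · intro c x _ hx
      rw [map_smul]
      exact Submodule.smul_mem _ c hx
  -- W is nontrivial
  have hsvW : ι s v ∈ W := by
    apply Submodule.subset_span
    exact ⟨1, by rw [hφ, one_mul]⟩
  have : Nontrivial W := ⟨⟨⟨ι s v, hsvW⟩, 0, fun h => hv (congrArg Subtype.val h)⟩⟩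
  -- elements of 𝔭 kill W
  have hkill : ∀ t ∈ 𝔭, ∀ x ∈ W, ι t x = 0 := by
    intro t ht x hx
    refine Submodule.span_induction ?_ ?_ ?_ ?_ hx
    · rintro _ ⟨u, rfl⟩
      rw [hφ]
      have : t * (u * s) = 0 := by
        rw [mul_left_comm, (hmem t).mp ht, mul_zero]
      rw [← Module.End.mul_apply, ← map_mul, this, map_zero]
      rfl
    · simp
    · intro x y _ _ hx hy
      rw [map_add, hx, hy, add_zero]
    · intro c x _ hx
      rw [map_smul, hx, smul_zero]
  -- commuting family on W
  let g : T → End ℂ W := fun t => (ι t).restrict (hstab t)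
  have hg : ∀ a b, g a * g b = g b * g a := by
    intro a b
    apply LinearMap.ext
    intro x
    apply Subtype.ext
    simp only [g, Module.End.mul_apply, LinearMap.coe_restrict_apply]
    rw [← Module.End.mul_apply, ← Module.End.mul_apply, ← map_mul, ← map_mul, mul_comm]
  obtain ⟨w, hw0, hw⟩ := exists_common_eigenvector g hg
  have hw0' : (w : V) ≠ 0 := fun h => hw0 (Subtype.ext h)
  have hw' : ∀ t, ∃ c : ℂ, ι t (w : V) = c • (w : V) := by
    intro t
    obtain ⟨c, hc⟩ := hw t
    exact ⟨c, by simpa [g] using congrArg Subtype.val hc⟩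
  choose μ hμ using hw'
  have hinj : ∀ a b : ℂ, a • (w : V) = b • (w : V) → a = b := by
    intro a b h
    exact smul_left_injective ℂ hw0' h
  let μ' : T →+* ℂ :=
    { toFun := μ
      map_one' := by
        apply hinj
        rw [← hμ, map_one, one_smul]
        rfl
      map_mul' := fun a b => by
        apply hinj
        rw [← hμ, map_mul, Module.End.mul_apply, hμ b, map_smul, hμ a, smul_smul, mul_comm]
      map_zero' := by
        apply hinj
        rw [← hμ, map_zero, zero_smul]
        rfl
      map_add' := fun a b => by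
        apply hinj
        rw [← hμ, map_add, LinearMap.add_apply, hμ a, hμ b, add_smul] }
  refine ⟨w, μ', hw0', hμ, ?_⟩
  -- kernel of μ' equals 𝔭
  have h𝔭ker : 𝔭 ≤ RingHom.ker μ' := by
    intro t ht
    rw [RingHom.mem_ker]
    apply hinj
    show μ t • (w : V) = (0 : ℂ) • (w : V)
    rw [← hμ, zero_smul]
    exact hkill t ht w w.2
  have hker_le : RingHom.ker μ' ≤ 𝔭 := by
    by_contra hnot
    obtain ⟨x, hxker, hx𝔭⟩ := Set.not_subset.mp hnot
    have := h𝔭prime
    have hint : IsIntegral ℤ x := (Algebra.IsIntegral.of_finite ℤ T).isIntegral x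
    have hlt := Ideal.comap_lt_comap_of_integral_mem_sdiff (R := ℤ) h𝔭ker ⟨hxker, hx𝔭⟩ hint
    have hbot : Ideal.comap (algebraMap ℤ T) (RingHom.ker μ') = ⊥ := by
      rw [eq_bot_iff]
      intro m hm
      rw [Ideal.mem_comap, RingHom.mem_ker] at hm
      rw [Ideal.mem_bot]
      have : ((m : ℤ) : ℂ) = 0 := by
        rw [← hm]
        simp
      exact_mod_cast this
    rw [hbot] at hlt
    exact not_lt_bot hlt
  exact hker_le.trans h𝔭le

end Fermat.Agent.S49.Lifting
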