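import Mathlib
import Fermat.Agent.S49.EigenCharacter

set_option autoImplicit false

namespace Fermat.Agent.S49.Lifting

open Module
open scoped IsMulCommutative

section Finite

variable {V : Type*} [AddCommGroup V] [Module ℂ V]

/-- Elements of the algebra generated by `G` preserve a lattice preserved by `G`. -/
theorem adjoin_apply_mem_lattice (G : Set (Module.End ℂ V)) (L : Submodule ℤ V)
    (hLG : ∀ t ∈ G, ∀ x ∈ L, t x ∈ L) {t : Module.End ℂ V} (ht : t ∈ Algebra.adjoin ℤ G) :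
    ∀ x ∈ L, t x ∈ L := by
  induction ht using Algebra.adjoin_induction with
  | mem t ht => exact hLG t ht
  | algebraMap r =>
    intro x hx
    have : (algebraMap ℤ (Module.End ℂ V) r) x = r • x := by
      rw [Algebra.algebraMap_eq_smul_one]
      simp
    rw [this]
    exact L.smul_mem r hx
  | add a b _ _ ha hb =>
    intro x hx
    rw [LinearMap.add_apply]
    exact L.add_mem (ha x hx) (hb x hx)
  | mul a b _ _ ha hb =>
    intro x hx
    rw [Module.End.mul_apply]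
    exact ha _ (hb x hx)

/-- The algebra generated over `ℤ` by endomorphisms preserving a finitely generated spanning
lattice is a finite `ℤ`-module. -/
theorem finite_adjoin_of_lattice (G : Set (Module.End ℂ V)) (L : Submodule ℤ V) (hLfg : L.FG)
    (hLG : ∀ t ∈ G, ∀ x ∈ L, t x ∈ L) (hspan : Submodule.span ℂ (L : Set V) = ⊤) :
    Module.Finite ℤ (Algebra.adjoin ℤ G) := by
  classical
  obtain ⟨S, hS⟩ := hLfg
  have hSL : ∀ x ∈ S, x ∈ L := fun x hx => hS ▸ Submodule.subset_span hx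
  have : Module.Finite ℤ L := Module.Finite.iff_fg.mpr ⟨S, hS⟩
  let ev : (Algebra.adjoin ℤ G) →ₗ[ℤ] (S → L) :=
    { toFun := fun t x => ⟨(t : Module.End ℂ V) x.1,
        adjoin_apply_mem_lattice G L hLG t.2 x.1 (hSL x.1 x.2)⟩
      map_add' := fun a b => by
        funext x
        apply Subtype.ext
        simp
      map_smul' := fun m a => by
        funext x
        apply Subtype.ext
        simp }
  refine Module.Finite.of_injective ev ?_
  rw [injective_iff_map_eq_zero]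
  intro t ht
  apply Subtype.ext
  have hker : (S : Set V) ⊆ LinearMap.ker (t : Module.End ℂ V) := by
    intro x hx
    have := congrFun ht ⟨x, hx⟩
    have h2 := congrArg Subtype.val this
    simpa [ev] using h2
  have htop : LinearMap.ker (t : Module.End ℂ V) = ⊤ := by
    rw [eq_top_iff, ← hspan, ← hS, Submodule.span_span_of_tower]
    exact Submodule.span_le.mpr hker
  apply LinearMap.ext
  intro x
  have : x ∈ LinearMap.ker (t : Module.End ℂ V) := htop ▸ Submodule.mem_top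
  simpa using this

end Finite

section Main

variable {V : Type*} [AddCommGroup V] [Module ℂ V]

/-- Deligne-Serre lifting lemma, abstract form (flexible version). -/
theorem deligneSerre_lifting'
    (G : Set (Module.End ℂ V)) (hG : ∀ s ∈ G, ∀ t ∈ G, s * t = t * s)
    (L : Submodule ℤ V) (hLfg : L.FG) (hLG : ∀ t ∈ G, ∀ x ∈ L, t x ∈ L)
    (hspan : Submodule.span ℂ (L : Set V) = ⊤)
    (p : ℕ) (hp : p.Prime) (f₀ : V) (hf₀L : f₀ ∈ L) (hf₀ : ∀ y ∈ L, f₀ ≠ (p : ℤ) • y)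
    (hm : ∀ t ∈ G, ∃ k : ℤ, ∃ y ∈ L, t f₀ - k • f₀ = (p : ℤ) • y) :
    ∃ (f : V), f ≠ 0 ∧ ∃ (c : Module.End ℂ V → integralClosure ℤ ℂ)
      (𝔪' : Ideal (integralClosure ℤ ℂ)),
      𝔪'.IsMaximal ∧ ((p : ℕ) : integralClosure ℤ ℂ) ∈ 𝔪' ∧
      ∀ t ∈ G, t f = (c t : ℂ) • f ∧
        ∀ k : ℤ, (∃ y ∈ L, t f₀ - k • f₀ = (p : ℤ) • y) →
          c t - ((k : ℤ) : integralClosure ℤ ℂ) ∈ 𝔪' := by
  classical
  have hcommT : IsMulCommutative (Algebra.adjoin ℤ G) := Algebra.isMulCommutative_adjoin ℤ hG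
  have hfinT : Module.Finite ℤ (Algebra.adjoin ℤ G) := finite_adjoin_of_lattice G L hLfg hLG hspan
  -- notation
  set T := Algebra.adjoin ℤ G with hT
  have hstab : ∀ t : T, ∀ x ∈ L, (t : Module.End ℂ V) x ∈ L :=
    fun t => adjoin_apply_mem_lattice G L hLG t.2
  -- the ideal 𝔫
  let 𝔫 : Ideal T :=
    { carrier := {t | ∃ y ∈ L, (t : Module.End ℂ V) f₀ = (p : ℤ) • y}
      add_mem' := by
        rintro a b ⟨y, hy, hay⟩ ⟨z, hz, hbz⟩
        refine ⟨y + z, L.add_mem hy hz, ?_⟩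
        simp [hay, hbz]
      zero_mem' := ⟨0, L.zero_mem, by simp⟩
      smul_mem' := by
        rintro c a ⟨y, hy, hay⟩
        refine ⟨(c : Module.End ℂ V) y, hstab c y hy, ?_⟩
        simp only [smul_eq_mul, Subalgebra.coe_mul, Module.End.mul_apply, hay]
        rw [map_zsmul] }
  have hmem𝔫 : ∀ t : T, t ∈ 𝔫 ↔ ∃ y ∈ L, (t : Module.End ℂ V) f₀ = (p : ℤ) • y := fun _ => Iff.rfl
  -- every element is congruent to an integer
  have hcongr : ∀ t : T, ∃ k : ℤ, t - algebraMap ℤ T k ∈ 𝔫 := by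
    have key : ∀ x : Module.End ℂ V, x ∈ Algebra.adjoin ℤ G →
        ∃ k : ℤ, ∃ y ∈ L, x f₀ - k • f₀ = (p : ℤ) • y := by
      intro x hx
      induction hx using Algebra.adjoin_induction with
      | mem t ht => exact hm t ht
      | algebraMap r =>
        refine ⟨r, 0, L.zero_mem, ?_⟩
        rw [Algebra.algebraMap_eq_smul_one]
        simp
      | add a b _ _ ha hb =>
        obtain ⟨k₁, y₁, hy₁, h₁⟩ := ha
        obtain ⟨k₂, y₂, hy₂, h₂⟩ := hb
        refine ⟨k₁ + k₂, y₁ + y₂, L.add_mem hy₁ hy₂, ?_⟩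
        rw [LinearMap.add_apply, add_smul, smul_add, ← h₁, ← h₂]
        abel
      | mul a b ha' _ ha hb =>
        obtain ⟨k₁, y₁, hy₁, h₁⟩ := ha
        obtain ⟨k₂, y₂, hy₂, h₂⟩ := hb
        refine ⟨k₁ * k₂, k₂ • y₁ + a y₂, L.add_mem (L.smul_mem _ hy₁)
          (adjoin_apply_mem_lattice G L hLG ha' y₂ hy₂), ?_⟩
        have hb' : b f₀ = k₂ • f₀ + (p : ℤ) • y₂ := by rw [← h₂]; abel
        have ha'' : a f₀ = k₁ • f₀ + (p : ℤ) • y₁ := by rw [← h₁]; abel
        rw [Module.End.mul_apply, hb', map_add, map_zsmul, map_zsmul, ha'']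
        module
    intro t
    obtain ⟨k, y, hy, h⟩ := key t.1 t.2
    refine ⟨k, y, hy, ?_⟩
    rw [← h]
    simp
  -- integers in 𝔫
  have hint𝔫 : ∀ k : ℤ, algebraMap ℤ T k ∈ 𝔫 ↔ (p : ℤ) ∣ k := by
    intro k
    constructor
    · rintro ⟨y, hy, h⟩
      by_contra hnd
      have hcop : IsCoprime k (p : ℤ) :=
        ((Nat.prime_iff_prime_int.mp hp).irreducible.coprime_iff_not_dvd.mpr hnd).symm
      obtain ⟨a, b, hab⟩ := hcop
      have hk : k • f₀ = (p : ℤ) • y := by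
        rw [← h]
        simp
      apply hf₀ (a • y + b • f₀) (L.add_mem (L.smul_mem _ hy) (L.smul_mem _ hf₀L))
      calc f₀ = (a * k + b * (p : ℤ)) • f₀ := by rw [hab, one_smul]
        _ = a • (k • f₀) + b • ((p : ℤ) • f₀) := by rw [add_smul, mul_smul, mul_smul]
        _ = (p : ℤ) • (a • y + b • f₀) := by
          rw [hk, smul_add, smul_comm a, smul_comm b]
    · rintro ⟨k', rfl⟩
      refine ⟨k' • f₀, L.smul_mem _ hf₀L, ?_⟩
      have hcoe : ∀ k : ℤ, ((algebraMap ℤ T k : T) : Module.End ℂ V) f₀ = k • f₀ := by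
        intro k
        simp
      rw [hcoe, mul_smul]
  have h𝔫max : 𝔫.IsMaximal := by
    rw [Ideal.isMaximal_iff]
    constructor
    · intro h1
      have : algebraMap ℤ T 1 ∈ 𝔫 := by simpa using h1
      have hdvd := (hint𝔫 1).mp this
      have : (p : ℤ) = 1 ∨ (p : ℤ) = -1 := Int.isUnit_iff.mp (isUnit_of_dvd_one hdvd)
      have hp2 := hp.two_le
      omega
    · intro J x hJ hx hxJ
      obtain ⟨k, hk⟩ := hcongr x
      have hnd : ¬ (p : ℤ) ∣ k := by
        intro hdvd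
        apply hx
        have := 𝔫.add_mem hk ((hint𝔫 k).mpr hdvd)
        simpa using this
      have hcop : IsCoprime k (p : ℤ) :=
        ((Nat.prime_iff_prime_int.mp hp).irreducible.coprime_iff_not_dvd.mpr hnd).symm
      obtain ⟨a, b, hab⟩ := hcop
      have h1 : (1 : T) = algebraMap ℤ T a * x - algebraMap ℤ T a * (x - algebraMap ℤ T k)
          + algebraMap ℤ T b * algebraMap ℤ T (p : ℤ) := by
        have : (1 : T) = algebraMap ℤ T (a * k + b * (p : ℤ)) := by rw [hab, map_one]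
        rw [this, map_add, map_mul, map_mul]
        ring
      rw [h1]
      refine J.add_mem (J.sub_mem (J.mul_mem_left _ hxJ) (J.mul_mem_left _ (hJ hk)))
        (J.mul_mem_left _ (hJ ((hint𝔫 _).mpr dvd_rfl)))
  have h𝔫prime : 𝔫.IsPrime := h𝔫max.isPrime
  -- eigenvector
  obtain ⟨f, μ, hf0, hfμ, hker⟩ := exists_eigenvector_character_le_prime
    (T := T) (V := V) (T.val : T →+* Module.End ℂ V) Subtype.val_injective 𝔫
  -- integrality of values of μ
  have hμint : ∀ t : T, μ t ∈ integralClosure ℤ ℂ := by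
    intro t
    have hint : IsIntegral ℤ t := (Algebra.IsIntegral.of_finite ℤ T).isIntegral t
    exact hint.map (μ.toIntAlgHom)
  let μ' : T →+* integralClosure ℤ ℂ := μ.codRestrict (integralClosure ℤ ℂ) hμint
  have hμ'coe : ∀ t, ((μ' t : integralClosure ℤ ℂ) : ℂ) = μ t := fun _ => rfl
  let _ : Algebra T (integralClosure ℤ ℂ) := μ'.toAlgebra
  have halg : algebraMap T (integralClosure ℤ ℂ) = μ' := rfl
  have : Algebra.IsIntegral T (integralClosure ℤ ℂ) := by
    constructor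
    intro z
    have hz : IsIntegral ℤ z := integralClosure.isIntegral z
    exact hz.tower_top
  have hker' : RingHom.ker (algebraMap T (integralClosure ℤ ℂ)) ≤ 𝔫 := by
    intro t ht
    apply hker
    rw [RingHom.mem_ker] at ht ⊢
    rw [halg] at ht
    rw [← hμ'coe, ht]
    rfl
  obtain ⟨𝔪', h𝔪'max, h𝔪'comap⟩ :=
    Ideal.exists_ideal_over_maximal_of_isIntegral (S := integralClosure ℤ ℂ) 𝔫 hker'
  have hmem𝔪' : ∀ t ∈ 𝔫, μ' t ∈ 𝔪' := by
    intro t ht
    rw [← h𝔪'comap, Ideal.mem_comap, halg] at ht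
    exact ht
  let c : Module.End ℂ V → integralClosure ℤ ℂ := fun t => if h : t ∈ T then μ' ⟨t, h⟩ else 0
  have hc : ∀ t (h : t ∈ T), c t = μ' ⟨t, h⟩ := fun t h => dif_pos h
  refine ⟨f, hf0, c, 𝔪', h𝔪'max, ?_, ?_⟩
  · have : algebraMap ℤ T (p : ℤ) ∈ 𝔫 := (hint𝔫 _).mpr dvd_rfl
    have := hmem𝔪' _ this
    simpa using this
  · intro t ht
    have htT : t ∈ T := Algebra.subset_adjoin ht
    rw [hc t htT]
    refine ⟨hfμ ⟨t, htT⟩, ?_⟩
    rintro k ⟨y, hy, h⟩
    have h𝔫t : (⟨t, htT⟩ : T) - algebraMap ℤ T k ∈ 𝔫 := by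
      refine ⟨y, hy, ?_⟩
      rw [← h]
      simp
    have := hmem𝔪' _ h𝔫t
    simpa using this

/-- Deligne-Serre lifting lemma, abstract form. -/
theorem deligneSerre_lifting
    (G : Set (Module.End ℂ V)) (hG : ∀ s ∈ G, ∀ t ∈ G, s * t = t * s)
    (L : Submodule ℤ V) (hLfg : L.FG) (hLG : ∀ t ∈ G, ∀ x ∈ L, t x ∈ L)
    (hspan : Submodule.span ℂ (L : Set V) = ⊤)
    (p : ℕ) (hp : p.Prime) (f₀ : V) (hf₀L : f₀ ∈ L) (hf₀ : ∀ y ∈ L, f₀ ≠ (p : ℤ) • y)
    (m : Module.End ℂ V → ℤ)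
    (hm : ∀ t ∈ G, ∃ y ∈ L, t f₀ - (m t) • f₀ = (p : ℤ) • y) :
    ∃ (f : V), f ≠ 0 ∧ ∃ (c : Module.End ℂ V → integralClosure ℤ ℂ)
      (𝔪' : Ideal (integralClosure ℤ ℂ)),
      𝔪'.IsMaximal ∧ ((p : ℕ) : integralClosure ℤ ℂ) ∈ 𝔪' ∧
      ∀ t ∈ G, t f = (c t : ℂ) • f ∧ c t - ((m t : ℤ) : integralClosure ℤ ℂ) ∈ 𝔪' := by
  obtain ⟨f, hf0, c, 𝔪', hmax, hp𝔪, h⟩ := deligneSerre_lifting' G hG L hLfg hLG hspan p hp f₀ hf₀L hf₀
    (fun t ht => ⟨m t, hm t ht⟩)
  exact ⟨f, hf0, c, 𝔪', hmax, hp𝔪, fun t ht => ⟨(h t ht).1, (h t ht).2 (m t) (hm t ht)⟩⟩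

end Main

end Fermat.Agent.S49.Lifting
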