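import Mathlib
import Fermat.Prelude.Def_CuspForm_IntegralLattice
import Fermat.Prelude.Def_CuspForm_IntegralStructure
import Fermat.Prelude.Def_CuspForm_HeckeAlgebra
import Fermat.Prelude.Thm_CuspForm_intLattice_fg
import Fermat.Prelude.Thm_CuspForm_mem_intLattice_of_coe_eq_heckeT
import Fermat.Prelude.Thm_CuspForm_mem_intLattice_of_coe_eq_heckeU
import Fermat.Agent.S49.Lifting

set_option autoImplicit false

namespace Fermat.Agent.S49.Integral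

open CongruenceSubgroup

/-- The `q`-integral set lies in the integral lattice. -/
theorem qIntegralSet_subset_intLattice (N : ℕ) :
    CuspForm.qIntegralSet N ⊆ (CuspForm.intLattice N 2 : Set (CuspForm (Gamma0 N) 2)) := by
  intro f hf
  apply Submodule.subset_span
  intro n
  obtain ⟨m, hm⟩ := Subring.mem_bot.mp (hf n)
  exact ⟨m, hm.symm⟩

/-- With an integral basis, the integral lattice spans the space of cusp forms. -/
theorem span_intLattice_eq_top {N : ℕ} (h : CuspForm.HasIntegralBasis N) :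
    Submodule.span ℂ ((CuspForm.intLattice N 2 : Submodule ℤ (CuspForm (Gamma0 N) 2)) :
      Set (CuspForm (Gamma0 N) 2)) = ⊤ := by
  rw [eq_top_iff, ← h]
  exact Submodule.span_mono (qIntegralSet_subset_intLattice N)

/-- Hecke generators preserve the integral lattice. -/
theorem heckeGenerators_apply_mem_intLattice {N : ℕ} [NeZero N]
    {t : Module.End ℂ (CuspForm (Gamma0 N) 2)} (ht : t ∈ CuspForm.heckeGenerators N 2 ∅)
    {x : CuspForm (Gamma0 N) 2} (hx : x ∈ CuspForm.intLattice N 2) :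
    t x ∈ CuspForm.intLattice N 2 := by
  rcases ht with ⟨ℓ, hℓ, hℓN, -, rfl⟩ | ⟨q, hqN, hq, -, rfl⟩
  · exact CuspForm.mem_intLattice_of_coe_eq_heckeT (by norm_num) hℓ.ne_zero
      (CuspForm.coe_heckeTLin_apply 2 hℓ hℓN x) hx
  · exact CuspForm.mem_intLattice_of_coe_eq_heckeU hq.ne_zero
      (CuspForm.coe_heckeULin_apply 2 hqN x) hx

/-- Deligne-Serre lifting for the weight two Hecke operators of level `N`: a mod `p` eigenvector
in the integral lattice lifts to a genuine common eigenvector with congruent eigenvalues. -/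
theorem exists_eigenvector_hecke {N : ℕ} [NeZero N] (h : CuspForm.HasIntegralBasis N)
    (p : ℕ) (hp : p.Prime) (a : ℕ → ℤ)
    (f₀ : CuspForm (Gamma0 N) 2) (hf₀L : f₀ ∈ CuspForm.intLattice N 2)
    (hf₀ : ∀ y ∈ CuspForm.intLattice N 2, f₀ ≠ (p : ℤ) • y)
    (hT : ∀ (ℓ : ℕ) (hℓ : ℓ.Prime) (hℓN : ¬ ℓ ∣ N), ∃ y ∈ CuspForm.intLattice N 2,
      CuspForm.heckeTLin 2 hℓ hℓN f₀ - a ℓ • f₀ = (p : ℤ) • y)
    (hU : ∀ (q : ℕ) (_ : q.Prime) (hqN : q ∣ N), ∃ y ∈ CuspForm.intLattice N 2,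
      CuspForm.heckeULin 2 hqN f₀ - a q • f₀ = (p : ℤ) • y) :
    ∃ f : CuspForm (Gamma0 N) 2, f ≠ 0 ∧
      ∃ (c : ℕ → integralClosure ℤ ℂ) (𝔪' : Ideal (integralClosure ℤ ℂ)),
      𝔪'.IsMaximal ∧ ((p : ℕ) : integralClosure ℤ ℂ) ∈ 𝔪' ∧
      (∀ (ℓ : ℕ) (hℓ : ℓ.Prime) (hℓN : ¬ ℓ ∣ N),
        CuspForm.heckeTLin 2 hℓ hℓN f = (c ℓ : ℂ) • f ∧
          c ℓ - ((a ℓ : ℤ) : integralClosure ℤ ℂ) ∈ 𝔪') ∧
      (∀ (q : ℕ) (_ : q.Prime) (hqN : q ∣ N),
        CuspForm.heckeULin 2 hqN f = (c q : ℂ) • f ∧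
          c q - ((a q : ℤ) : integralClosure ℤ ℂ) ∈ 𝔪') := by
  classical
  have hm : ∀ t ∈ CuspForm.heckeGenerators N 2 ∅, ∃ k : ℤ, ∃ y ∈ CuspForm.intLattice N 2,
      t f₀ - k • f₀ = (p : ℤ) • y := by
    rintro t (⟨ℓ, hℓ, hℓN, -, rfl⟩ | ⟨q, hqN, hq, -, rfl⟩)
    · exact ⟨a ℓ, hT ℓ hℓ hℓN⟩
    · exact ⟨a q, hU q hq hqN⟩
  obtain ⟨f, hf0, c', 𝔪', hmax, hp𝔪, hc'⟩ := Lifting.deligneSerre_lifting'
    (CuspForm.heckeGenerators N 2 ∅)
    (fun s hs t ht => (CuspForm.commute_of_mem_heckeGenerators hs ht).eq)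
    (CuspForm.intLattice N 2) (CuspForm.intLattice_fg N 2)
    (fun t ht x hx => heckeGenerators_apply_mem_intLattice ht hx)
    (span_intLattice_eq_top h) p hp f₀ hf₀L hf₀ hm
  let c : ℕ → integralClosure ℤ ℂ := fun ℓ =>
    if hℓ : ℓ.Prime then
      (if hℓN : ℓ ∣ N then c' (CuspForm.heckeULin 2 hℓN) else c' (CuspForm.heckeTLin 2 hℓ hℓN))
    else 0
  refine ⟨f, hf0, c, 𝔪', hmax, hp𝔪, ?_, ?_⟩
  · intro ℓ hℓ hℓN
    have hc : c ℓ = c' (CuspForm.heckeTLin 2 hℓ hℓN) := by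
      simp only [c, dif_pos hℓ, dif_neg hℓN]
    have hmem : CuspForm.heckeTLin 2 hℓ hℓN ∈ CuspForm.heckeGenerators N 2 ∅ :=
      CuspForm.heckeTLin_mem_heckeGenerators hℓ hℓN (Set.notMem_empty ℓ)
    rw [hc]
    exact ⟨(hc' _ hmem).1, (hc' _ hmem).2 (a ℓ) (hT ℓ hℓ hℓN)⟩
  · intro q hq hqN
    have hc : c q = c' (CuspForm.heckeULin 2 hqN) := by
      simp only [c, dif_pos hq, dif_pos hqN]
    have hmem : CuspForm.heckeULin 2 hqN ∈ CuspForm.heckeGenerators N 2 ∅ :=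
      CuspForm.heckeULin_mem_heckeGenerators hq hqN (Set.notMem_empty q)
    rw [hc]
    exact ⟨(hc' _ hmem).1, (hc' _ hmem).2 (a q) (hU q hq hqN)⟩

end Fermat.Agent.S49.Integral
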